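import Mathlib

/-!
# DS-A (Rankin bound), part 2: from partial sums to the Dirichlet series

`b : ℕ → ℝ` nonnegative with `∑_{n ≤ M} b n ≤ B M`.  Then for `1 < s ≤ 2`
`∑_{n ≥ 1} b n / n ^ s ≤ 2 B / (s - 1)` (finite-sum form and `tsum` form).
Pure real analysis: Abel summation against `∑ 1/n^s ≤ 1 + 1/(s-1)`.
-/

set_option autoImplicit false

open Finset

namespace Fermat.Agent.DS

section Abel

/-- Abel's inequality: nonnegative antitone weights against a sequence with nonnegative partial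
sums. -/
theorem dsa_abel_nonneg (w d : ℕ → ℝ) (hw0 : ∀ i, 0 ≤ w i) (hw : ∀ i, w (i + 1) ≤ w i)
    (m : ℕ) (hD : ∀ j ≤ m, 0 ≤ ∑ i ∈ range j, d i) :
    0 ≤ ∑ i ∈ range m, w i * d i := by
  have h := Finset.sum_range_by_parts w d m
  simp only [smul_eq_mul] at h
  rw [h]
  have h1 : 0 ≤ w (m - 1) * ∑ i ∈ range m, d i := mul_nonneg (hw0 _) (hD m le_rfl)
  have h2 : ∑ i ∈ range (m - 1), (w (i + 1) - w i) * ∑ j ∈ range (i + 1), d j ≤ 0 := by
    refine Finset.sum_nonpos fun i hi => ?_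
    have hi' : i + 1 ≤ m := by
      have := Finset.mem_range.mp hi
      omega
    exact mul_nonpos_of_nonpos_of_nonneg (sub_nonpos.mpr (hw i)) (hD (i + 1) hi')
  linarith

/-- comparison of weighted sums from comparison of partial sums. -/
theorem dsa_abel_le (w b c : ℕ → ℝ) (hw0 : ∀ i, 0 ≤ w i) (hw : ∀ i, w (i + 1) ≤ w i)
    (m : ℕ) (h : ∀ j ≤ m, ∑ i ∈ range j, b i ≤ ∑ i ∈ range j, c i) :
    ∑ i ∈ range m, w i * b i ≤ ∑ i ∈ range m, w i * c i := by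
  have := dsa_abel_nonneg w (fun i => c i - b i) hw0 hw m (fun j hj => by
    rw [Finset.sum_sub_distrib]
    exact sub_nonneg.mpr (h j hj))
  simp only [mul_sub, Finset.sum_sub_distrib] at this
  linarith

end Abel

section Zeta

/-- `∑_{n=1}^{m} n^{-s} ≤ 1 + 1/(s-1)`. -/
theorem dsa_zeta_partial_le (s : ℝ) (hs : 1 < s) (m : ℕ) :
    ∑ i ∈ range m, ((i : ℝ) + 1) ^ (-s) ≤ 1 + 1 / (s - 1) := by
  rcases Nat.eq_zero_or_pos m with rfl | hm
  · simp
    have : 0 < s - 1 := by linarith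
    positivity
  obtain ⟨m', rfl⟩ : ∃ m', m = m' + 1 := ⟨m - 1, by omega⟩
  rw [Finset.sum_range_succ']
  simp only [Nat.cast_zero, zero_add, Real.one_rpow]
  have hanti : AntitoneOn (fun x : ℝ => x ^ (-s)) (Set.Icc (1 : ℝ) (1 + (m' : ℕ))) := by
    intro x hx y hy hxy
    have hx0 : 0 < x := lt_of_lt_of_le one_pos hx.1
    exact Real.rpow_le_rpow_of_nonpos hx0 hxy (by linarith)
  have h1 := AntitoneOn.sum_le_integral (f := fun x : ℝ => x ^ (-s)) (x₀ := 1) (a := m') hanti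
  have h2 : ∑ i ∈ range m', ((1 : ℝ) + ((i + 1 : ℕ) : ℝ)) ^ (-s) =
      ∑ i ∈ range m', (((i + 1 : ℕ) : ℝ) + 1) ^ (-s) := by
    refine Finset.sum_congr rfl fun i _ => ?_
    rw [add_comm]
  have hint : ∫ x in (1 : ℝ)..(1 + (m' : ℝ)), x ^ (-s) ≤ 1 / (s - 1) := by
    rw [integral_rpow (Or.inr ⟨by linarith, by
      rw [Set.uIcc_of_le (by linarith [Nat.cast_nonneg (α := ℝ) m'])]
      intro h0
      linarith [h0.1]⟩)]
    have hneg : -s + 1 = -(s - 1) := by ring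
    rw [Real.one_rpow, hneg]
    have hpos : 0 < s - 1 := by linarith
    have hm0 : (0 : ℝ) < 1 + m' := by positivity
    have hle : (1 + (m' : ℝ)) ^ (-(s - 1)) ≥ 0 := (Real.rpow_pos_of_pos hm0 _).le
    rw [div_neg, ← neg_div, neg_sub]
    exact div_le_div_of_nonneg_right (sub_le_self 1 hle) hpos.le
  have h3 : ∑ i ∈ range m', (((i + 1 : ℕ) : ℝ) + 1) ^ (-s) ≤ 1 / (s - 1) := by
    rw [← h2]
    refine h1.trans ?_
    exact_mod_cast hint
  have h4 : ∑ i ∈ range m', (((i + 1 : ℕ) : ℝ) + 1) ^ (-s) =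
      ∑ i ∈ range m', ((((i + 1 : ℕ) : ℝ)) + 1) ^ (-s) := rfl
  linarith

end Zeta

section Dirichlet

variable (b : ℕ → ℝ) (hb : ∀ n, 0 ≤ b n) (B : ℝ) (hB : 0 ≤ B)
  (hA : ∀ M : ℕ, 0 < M → ∑ n ∈ range (M + 1), b n ≤ B * M)

include hb hB hA in
/-- finite form of the Dirichlet series bound. -/
theorem dsa_dirichlet_partial_le (s : ℝ) (hs : 1 < s) (hs2 : s ≤ 2) (m : ℕ) :
    ∑ i ∈ range m, b (i + 1) * ((i : ℝ) + 1) ^ (-s) ≤ 2 * B / (s - 1) := by
  have hpos : 0 < s - 1 := by linarith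
  have hw0 : ∀ i : ℕ, 0 ≤ ((i : ℝ) + 1) ^ (-s) := fun i =>
    (Real.rpow_pos_of_pos (by positivity) _).le
  have hw : ∀ i : ℕ, (((i + 1 : ℕ) : ℝ) + 1) ^ (-s) ≤ ((i : ℝ) + 1) ^ (-s) := by
    intro i
    refine Real.rpow_le_rpow_of_nonpos (by positivity) ?_ (by linarith)
    push_cast
    linarith
  have hpart : ∀ j ≤ m, ∑ i ∈ range j, b (i + 1) ≤ ∑ i ∈ range j, B := by
    intro j _
    rcases Nat.eq_zero_or_pos j with rfl | hj
    · simp
    have h1 := hA j hj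
    rw [Finset.sum_range_succ'] at h1
    have h2 : ∑ i ∈ range j, B = B * j := by
      rw [Finset.sum_const, Finset.card_range, nsmul_eq_mul, mul_comm]
    rw [h2]
    linarith [hb 0]
  have h := dsa_abel_le (fun i : ℕ => ((i : ℝ) + 1) ^ (-s)) (fun i => b (i + 1)) (fun _ => B)
    hw0 (fun i => by simpa using hw i) m hpart
  have h3 : ∑ i ∈ range m, ((i : ℝ) + 1) ^ (-s) * B ≤ (1 + 1 / (s - 1)) * B := by
    rw [← Finset.sum_mul]
    exact mul_le_mul_of_nonneg_right (dsa_zeta_partial_le s hs m) hB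
  have h4 : (1 + 1 / (s - 1)) * B ≤ 2 * B / (s - 1) := by
    have : 1 + 1 / (s - 1) ≤ 2 / (s - 1) := by
      have h1 : (1 : ℝ) = (s - 1) / (s - 1) := (div_self hpos.ne').symm
      calc 1 + 1 / (s - 1) = ((s - 1) + 1) / (s - 1) := by rw [add_div, ← h1]
        _ ≤ 2 / (s - 1) := div_le_div_of_nonneg_right (by linarith) hpos.le
    calc (1 + 1 / (s - 1)) * B ≤ 2 / (s - 1) * B := mul_le_mul_of_nonneg_right this hB
      _ = 2 * B / (s - 1) := by ring
  calc ∑ i ∈ range m, b (i + 1) * ((i : ℝ) + 1) ^ (-s)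
      = ∑ i ∈ range m, ((i : ℝ) + 1) ^ (-s) * b (i + 1) :=
        Finset.sum_congr rfl fun i _ => mul_comm _ _
    _ ≤ ∑ i ∈ range m, ((i : ℝ) + 1) ^ (-s) * B := h
    _ ≤ 2 * B / (s - 1) := h3.trans h4

include hb hB hA in
theorem dsa_dirichlet_range_le (s : ℝ) (hs : 1 < s) (hs2 : s ≤ 2) (m : ℕ) :
    ∑ n ∈ range m, b n / (n : ℝ) ^ s ≤ 2 * B / (s - 1) := by
  have hpos : 0 < s - 1 := by linarith
  rcases Nat.eq_zero_or_pos m with rfl | hm
  · simp
    positivity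
  obtain ⟨m', rfl⟩ : ∃ m', m = m' + 1 := ⟨m - 1, by omega⟩
  rw [Finset.sum_range_succ']
  have h0 : b 0 / ((0 : ℕ) : ℝ) ^ s = 0 := by
    rw [Nat.cast_zero, Real.zero_rpow (by linarith), div_zero]
  rw [h0, add_zero]
  have := dsa_dirichlet_partial_le b hb B hB hA s hs hs2 m'
  refine le_trans (le_of_eq ?_) this
  refine Finset.sum_congr rfl fun i _ => ?_
  rw [Real.rpow_neg (by positivity), div_eq_mul_inv]
  push_cast
  rfl

include hb hB hA in
/-- **the Dirichlet series `∑ b n / n ^ s` converges for `s > 1` and is `≤ 2 B / (s - 1)` on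
`(1, 2]`.** -/
theorem dsa_dirichlet_summable (s : ℝ) (hs : 1 < s) (hs2 : s ≤ 2) :
    Summable (fun n : ℕ => b n / (n : ℝ) ^ s) :=
  summable_of_sum_range_le (fun n => div_nonneg (hb n) (Real.rpow_nonneg (Nat.cast_nonneg n) s))
    (dsa_dirichlet_range_le b hb B hB hA s hs hs2)

include hb hB hA in
theorem dsa_dirichlet_tsum_le (s : ℝ) (hs : 1 < s) (hs2 : s ≤ 2) :
    ∑' n : ℕ, b n / (n : ℝ) ^ s ≤ 2 * B / (s - 1) :=
  Real.tsum_le_of_sum_range_le
    (fun n => div_nonneg (hb n) (Real.rpow_nonneg (Nat.cast_nonneg n) s))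
    (dsa_dirichlet_range_le b hb B hB hA s hs hs2)

end Dirichlet

end Fermat.Agent.DS
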