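import Mathlib

/-!
# DS-A (Rankin bound), part 3: the local factor

`A e : ℂ`, `‖e‖ = 1`; `c` the Hecke sequence `c₀ = 1, c₁ = A, c_{m+2} = A c_{m+1} - e c_m`
(`c_m = a_{p^m}`), `u_m = ‖c_m‖²`, `b = ‖A‖²`.  Purely formal statement
(`dsa_g_ge`): the coefficients `g_m` of `(∑ u_m x^m) / (1 - x²)` satisfy `g_m ≥ b^m / m!`.
Analytic consequence (`dsa_local_ge`): for `0 ≤ x < 1` with `∑ u_m x^m` summable,
`(1 - x²) exp (b x) ≤ ∑ u_m x^m`.
-/

set_option autoImplicit false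

open PowerSeries Finset

namespace Fermat.Agent.DS

section Rec

/-- the order-2 recurrence `x_{m+2} = A x_{m+1} - e x_m`. -/
def dsa_Rec (A e : ℂ) (x : ℕ → ℂ) : Prop := ∀ m, x (m + 2) = A * x (m + 1) - e * x m

/-- products of solutions satisfy an order-4 recurrence. -/
theorem dsa_rec_mul {A A' e e' : ℂ} (he : e * e' = 1) {x y : ℕ → ℂ} (hx : dsa_Rec A e x)
    (hy : dsa_Rec A' e' y) (m : ℕ) :
    x (m + 4) * y (m + 4) - (A * A') * (x (m + 3) * y (m + 3)) +
      (A ^ 2 * e' + A' ^ 2 * e - 2) * (x (m + 2) * y (m + 2)) -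
      (A * A') * (x (m + 1) * y (m + 1)) + x m * y m = 0 := by
  have he0 : e ≠ 0 := fun h => by rw [h, zero_mul] at he; exact zero_ne_one he
  have he' : e' = e⁻¹ := eq_inv_of_mul_eq_one_right he
  have x2 := hx m
  have x3 := hx (m + 1)
  have x4 := hx (m + 2)
  have y2 := hy m
  have y3 := hy (m + 1)
  have y4 := hy (m + 2)
  rw [show m + 2 + 2 = m + 4 from rfl, show m + 2 + 1 = m + 3 from rfl] at x4 y4
  rw [show m + 1 + 2 = m + 3 from rfl, show m + 1 + 1 = m + 2 from rfl] at x3 y3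
  rw [x4, y4, x3, y3, x2, y2, he']
  field_simp
  ring

/-- the Hecke sequence `c_m = a_{p^m}`. -/
noncomputable def dsa_c (A e : ℂ) : ℕ → ℂ
  | 0 => 1
  | 1 => A
  | (m + 2) => A * dsa_c A e (m + 1) - e * dsa_c A e m

/-- the power sums `p_m = α^m + β^m`. -/
noncomputable def dsa_p (A e : ℂ) : ℕ → ℂ
  | 0 => 2
  | 1 => A
  | (m + 2) => A * dsa_p A e (m + 1) - e * dsa_p A e m

theorem dsa_c_rec (A e : ℂ) : dsa_Rec A e (dsa_c A e) := fun m => by rw [dsa_c]

theorem dsa_p_rec (A e : ℂ) : dsa_Rec A e (dsa_p A e) := fun m => by rw [dsa_p]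

theorem dsa_rec_conj {A e : ℂ} {x : ℕ → ℂ} (hx : dsa_Rec A e x) :
    dsa_Rec ((starRingEnd ℂ) A) ((starRingEnd ℂ) e) (fun m => (starRingEnd ℂ) (x m)) := by
  intro m
  simp only
  rw [hx m, map_sub, map_mul, map_mul]

/-- `b = ‖A‖²`. -/
noncomputable def dsa_b (A : ℂ) : ℝ := Complex.normSq A

/-- `κ = A² ē + Ā² e - 2`. -/
noncomputable def dsa_kappa (A e : ℂ) : ℝ := 2 * (A ^ 2 * (starRingEnd ℂ) e).re - 2

theorem dsa_b_nonneg (A : ℂ) : 0 ≤ dsa_b A := Complex.normSq_nonneg A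

theorem dsa_b_cast (A : ℂ) : ((dsa_b A : ℝ) : ℂ) = A * (starRingEnd ℂ) A := by
  rw [dsa_b, Complex.mul_conj]

theorem dsa_kappa_cast (A e : ℂ) :
    ((dsa_kappa A e : ℝ) : ℂ) =
      A ^ 2 * (starRingEnd ℂ) e + (starRingEnd ℂ) A ^ 2 * e - 2 := by
  have h := Complex.add_conj (A ^ 2 * (starRingEnd ℂ) e)
  rw [map_mul, map_pow, Complex.conj_conj] at h
  rw [dsa_kappa, h]
  push_cast
  ring

/-- the order-4 recurrence for `‖x_m‖²`. -/
theorem dsa_normSq_rec {A e : ℂ} (he : Complex.normSq e = 1) {x : ℕ → ℂ} (hx : dsa_Rec A e x)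
    (m : ℕ) :
    Complex.normSq (x (m + 4)) - dsa_b A * Complex.normSq (x (m + 3)) +
      dsa_kappa A e * Complex.normSq (x (m + 2)) - dsa_b A * Complex.normSq (x (m + 1)) +
      Complex.normSq (x m) = 0 := by
  apply Complex.ofReal_injective
  push_cast
  rw [dsa_b_cast, dsa_kappa_cast]
  simp only [← Complex.mul_conj]
  have hee : e * (starRingEnd ℂ) e = 1 := by rw [Complex.mul_conj, he, Complex.ofReal_one]
  exact dsa_rec_mul hee hx (dsa_rec_conj hx) m

/-- `u_m = ‖c_m‖²`. -/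
noncomputable def dsa_u (A e : ℂ) (m : ℕ) : ℝ := Complex.normSq (dsa_c A e m)

/-- `‖p_m‖²`. -/
noncomputable def dsa_bb (A e : ℂ) (m : ℕ) : ℝ := Complex.normSq (dsa_p A e m)

theorem dsa_u_nonneg (A e : ℂ) (m : ℕ) : 0 ≤ dsa_u A e m := Complex.normSq_nonneg _

theorem dsa_bb_nonneg (A e : ℂ) (m : ℕ) : 0 ≤ dsa_bb A e m := Complex.normSq_nonneg _

theorem dsa_u_rec {A e : ℂ} (he : Complex.normSq e = 1) (m : ℕ) :
    dsa_u A e (m + 4) - dsa_b A * dsa_u A e (m + 3) + dsa_kappa A e * dsa_u A e (m + 2) -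
      dsa_b A * dsa_u A e (m + 1) + dsa_u A e m = 0 :=
  dsa_normSq_rec he (dsa_c_rec A e) m

theorem dsa_bb_rec {A e : ℂ} (he : Complex.normSq e = 1) (m : ℕ) :
    dsa_bb A e (m + 4) - dsa_b A * dsa_bb A e (m + 3) + dsa_kappa A e * dsa_bb A e (m + 2) -
      dsa_b A * dsa_bb A e (m + 1) + dsa_bb A e m = 0 :=
  dsa_normSq_rec he (dsa_p_rec A e) m

theorem dsa_u_zero (A e : ℂ) : dsa_u A e 0 = 1 := by simp [dsa_u, dsa_c]

theorem dsa_u_one (A e : ℂ) : dsa_u A e 1 = dsa_b A := by simp [dsa_u, dsa_c, dsa_b]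

theorem dsa_bb_zero (A e : ℂ) : dsa_bb A e 0 = 4 := by
  simp [dsa_bb, dsa_p]
  norm_num

theorem dsa_bb_one (A e : ℂ) : dsa_bb A e 1 = dsa_b A := by simp [dsa_bb, dsa_p, dsa_b]

theorem dsa_u_two {A e : ℂ} (he : Complex.normSq e = 1) :
    dsa_u A e 2 - dsa_b A * dsa_u A e 1 + dsa_kappa A e * dsa_u A e 0 = -1 := by
  have hee : e * (starRingEnd ℂ) e = 1 := by rw [Complex.mul_conj, he, Complex.ofReal_one]
  have he0 : e ≠ 0 := fun h => by rw [h, zero_mul] at hee; exact zero_ne_one hee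
  have he' : (starRingEnd ℂ) e = e⁻¹ := eq_inv_of_mul_eq_one_right hee
  rw [dsa_u_zero, dsa_u_one]
  apply Complex.ofReal_injective
  push_cast
  rw [dsa_b_cast, dsa_kappa_cast]
  simp only [dsa_u, ← Complex.mul_conj, dsa_c, map_sub, map_mul, he', mul_one]
  field_simp
  ring

theorem dsa_u_three {A e : ℂ} (he : Complex.normSq e = 1) :
    dsa_u A e 3 - dsa_b A * dsa_u A e 2 + dsa_kappa A e * dsa_u A e 1 -
      dsa_b A * dsa_u A e 0 = 0 := by
  have hee : e * (starRingEnd ℂ) e = 1 := by rw [Complex.mul_conj, he, Complex.ofReal_one]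
  have he0 : e ≠ 0 := fun h => by rw [h, zero_mul] at hee; exact zero_ne_one hee
  have he' : (starRingEnd ℂ) e = e⁻¹ := eq_inv_of_mul_eq_one_right hee
  rw [dsa_u_zero, dsa_u_one]
  apply Complex.ofReal_injective
  push_cast
  rw [dsa_b_cast, dsa_kappa_cast]
  simp only [dsa_u, ← Complex.mul_conj, dsa_c, map_sub, map_mul, he', mul_one]
  field_simp
  ring

theorem dsa_bb_two {A e : ℂ} (he : Complex.normSq e = 1) :
    dsa_bb A e 2 - dsa_b A * dsa_bb A e 1 = -(2 * dsa_kappa A e) := by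
  have hee : e * (starRingEnd ℂ) e = 1 := by rw [Complex.mul_conj, he, Complex.ofReal_one]
  have he0 : e ≠ 0 := fun h => by rw [h, zero_mul] at hee; exact zero_ne_one hee
  have he' : (starRingEnd ℂ) e = e⁻¹ := eq_inv_of_mul_eq_one_right hee
  apply Complex.ofReal_injective
  push_cast
  rw [dsa_b_cast, dsa_kappa_cast]
  simp only [dsa_bb, ← Complex.mul_conj, dsa_p, map_sub, map_mul, map_ofNat, he']
  field_simp
  ring

theorem dsa_bb_three {A e : ℂ} (he : Complex.normSq e = 1) :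
    dsa_bb A e 3 - dsa_b A * dsa_bb A e 2 + dsa_kappa A e * dsa_bb A e 1 = 3 * dsa_b A := by
  have hee : e * (starRingEnd ℂ) e = 1 := by rw [Complex.mul_conj, he, Complex.ofReal_one]
  have he0 : e ≠ 0 := fun h => by rw [h, zero_mul] at hee; exact zero_ne_one hee
  have he' : (starRingEnd ℂ) e = e⁻¹ := eq_inv_of_mul_eq_one_right hee
  apply Complex.ofReal_injective
  push_cast
  rw [dsa_b_cast, dsa_kappa_cast]
  simp only [dsa_bb, ← Complex.mul_conj, dsa_p, map_sub, map_mul, map_ofNat, he']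
  field_simp
  ring

theorem dsa_bb_four {A e : ℂ} (he : Complex.normSq e = 1) :
    dsa_bb A e 4 - dsa_b A * dsa_bb A e 3 + dsa_kappa A e * dsa_bb A e 2 -
      dsa_b A * dsa_bb A e 1 = -4 := by
  have h := dsa_bb_rec (A := A) he 0
  rw [dsa_bb_zero] at h
  simp only [zero_add] at h
  linarith

end Rec

section Series

variable (A e : ℂ)

/-- `P(x) = ∏ (1 - α_i ᾱ_j x) = 1 - b x + κ x² - b x³ + x⁴`. -/
noncomputable def dsa_P : ℝ⟦X⟧ :=
  1 - C (dsa_b A) * X ^ 1 + C (dsa_kappa A e) * X ^ 2 - C (dsa_b A) * X ^ 3 + X ^ 4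

/-- coefficients of `(∑ s_n xⁿ) · P`. -/
theorem dsa_coeff_mk_mul_P (s : ℕ → ℝ) (n : ℕ) :
    coeff n (PowerSeries.mk s * dsa_P A e) =
      s n - dsa_b A * (if 1 ≤ n then s (n - 1) else 0) +
        dsa_kappa A e * (if 2 ≤ n then s (n - 2) else 0) -
        dsa_b A * (if 3 ≤ n then s (n - 3) else 0) + (if 4 ≤ n then s (n - 4) else 0) := by
  have h : PowerSeries.mk s * dsa_P A e =
      PowerSeries.mk s - C (dsa_b A) * (PowerSeries.mk s * X ^ 1) +
        C (dsa_kappa A e) * (PowerSeries.mk s * X ^ 2) -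
        C (dsa_b A) * (PowerSeries.mk s * X ^ 3) + PowerSeries.mk s * X ^ 4 := by
    rw [dsa_P]
    ring
  rw [h]
  simp only [map_add, map_sub, coeff_C_mul, coeff_mul_X_pow', coeff_mk]

/-- `F = ∑ u_m x^m`. -/
noncomputable def dsa_F : ℝ⟦X⟧ := PowerSeries.mk (dsa_u A e)

/-- `∑_{m ≥ 1} ‖p_m‖² x^m`. -/
noncomputable def dsa_Bt : ℝ⟦X⟧ := PowerSeries.mk (fun m => if m = 0 then 0 else dsa_bb A e m)

variable {A e}

/-- **(3a)** `F · P = 1 - x²`. -/
theorem dsa_F_mul_P (he : Complex.normSq e = 1) : dsa_F A e * dsa_P A e = 1 - X ^ 2 := by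
  ext n
  rw [dsa_F, dsa_coeff_mk_mul_P, map_sub, coeff_one, coeff_X_pow]
  rcases n with _ | _ | _ | _ | m
  · simp [dsa_u_zero]
  · simp [dsa_u_zero, dsa_u_one]
  · have := dsa_u_two (A := A) he
    simp
    linarith
  · have := dsa_u_three (A := A) he
    simp
    linarith
  · have := dsa_u_rec (A := A) he m
    have h1 : m + 1 + 1 + 1 + 1 = m + 4 := rfl
    simp [h1]
    exact this

/-- `-x P'(x)`. -/
noncomputable def dsa_Q (A e : ℂ) : ℝ⟦X⟧ :=
  C (dsa_b A) * X ^ 1 - C (2 * dsa_kappa A e) * X ^ 2 + C (3 * dsa_b A) * X ^ 3 - C 4 * X ^ 4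

/-- **(3b)** Newton: `(∑_{m ≥ 1} ‖p_m‖² x^m) · P = -x P'`. -/
theorem dsa_Bt_mul_P (he : Complex.normSq e = 1) : dsa_Bt A e * dsa_P A e = dsa_Q A e := by
  ext n
  rw [dsa_Bt, dsa_coeff_mk_mul_P, dsa_Q]
  simp only [map_add, map_sub, coeff_C_mul, coeff_X_pow]
  rcases n with _ | _ | _ | _ | _ | m
  · simp
  · simp [dsa_bb_one]
  · have := dsa_bb_two (A := A) he
    simp
    linarith
  · have := dsa_bb_three (A := A) he
    simp
    linarith
  · have := dsa_bb_four (A := A) he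
    simp
    linarith
  · have := dsa_bb_rec (A := A) he (m + 1)
    have h1 : m + 1 + 1 + 1 + 1 + 1 = m + 5 := rfl
    simp [h1]
    have e1 : m + 1 + 4 = m + 5 := rfl
    have e2 : m + 1 + 3 = m + 4 := rfl
    have e3 : m + 1 + 2 = m + 3 := rfl
    have e4 : m + 1 + 1 = m + 2 := rfl
    rw [e1, e2, e3, e4] at this
    exact this

/-- the geometric series `1 / (1 - x²)`. -/
noncomputable def dsa_geo : ℝ⟦X⟧ := PowerSeries.mk (fun m => if Even m then 1 else 0)

theorem dsa_geo_mul : dsa_geo * (1 - X ^ 2) = 1 := by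
  ext n
  rw [mul_sub, mul_one, map_sub, coeff_mul_X_pow', dsa_geo, coeff_mk, coeff_mk, coeff_one]
  rcases n with _ | _ | m
  · simp
  · simp
  · have h1 : m + 1 + 1 = m + 2 := rfl
    have h2 : Even (m + 2) ↔ Even m := by
      rw [Nat.even_add]
      simp
    simp [h1, h2]

/-- `G = F / (1 - x²) = 1 / P`. -/
noncomputable def dsa_G (A e : ℂ) : ℝ⟦X⟧ := dsa_F A e * dsa_geo

theorem dsa_G_mul_P (he : Complex.normSq e = 1) : dsa_G A e * dsa_P A e = 1 := by
  rw [dsa_G, mul_right_comm, dsa_F_mul_P he, mul_comm, dsa_geo_mul]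

theorem dsa_F_eq (A e : ℂ) : dsa_G A e * (1 - X ^ 2) = dsa_F A e := by
  rw [dsa_G, mul_assoc, dsa_geo_mul, mul_one]

theorem dsa_coeff_G_nonneg (A e : ℂ) (n : ℕ) : 0 ≤ coeff n (dsa_G A e) := by
  rw [dsa_G, coeff_mul]
  refine Finset.sum_nonneg fun x _ => mul_nonneg ?_ ?_
  · rw [dsa_F, coeff_mk]
    exact dsa_u_nonneg A e _
  · rw [dsa_geo, coeff_mk]
    split_ifs <;> norm_num

theorem dsa_coeff_G_zero (A e : ℂ) : coeff 0 (dsa_G A e) = 1 := by
  rw [dsa_G, coeff_mul]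
  simp [dsa_F, dsa_geo, dsa_u_zero]

theorem dsa_coeff_Bt_nonneg (A e : ℂ) (n : ℕ) : 0 ≤ coeff n (dsa_Bt A e) := by
  rw [dsa_Bt, coeff_mk]
  split_ifs
  · exact le_rfl
  · exact dsa_bb_nonneg A e n

theorem dsa_X_mul_deriv_P (A e : ℂ) : X * d⁄dX ℝ (dsa_P A e) = -dsa_Q A e := by
  ext n
  rcases n with _ | n
  · simp [dsa_Q]
  rw [coeff_succ_X_mul, coeff_derivative, dsa_P, dsa_Q]
  simp only [map_add, map_sub, map_neg, coeff_C_mul, coeff_X_pow, coeff_one]
  rcases n with _ | _ | _ | _ | m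
  · simp
  · simp
    ring
  · simp
    ring
  · simp
    norm_num
  · have h1 : m + 1 + 1 + 1 + 1 + 1 = m + 5 := rfl
    simp [h1]

/-- **(3c)** `x G' = (∑_{m ≥ 1} ‖p_m‖² x^m) · G`. -/
theorem dsa_X_mul_deriv_G (he : Complex.normSq e = 1) :
    X * d⁄dX ℝ (dsa_G A e) = dsa_Bt A e * dsa_G A e := by
  have hP0 : dsa_P A e ≠ 0 := by
    intro h
    have := dsa_G_mul_P (A := A) he
    rw [h, mul_zero] at this
    exact zero_ne_one this
  have h1 : d⁄dX ℝ (dsa_G A e * dsa_P A e) = 0 := by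
    rw [dsa_G_mul_P he, derivative_one]
  rw [Derivation.leibniz, smul_eq_mul, smul_eq_mul] at h1
  apply mul_left_cancel₀ hP0
  have h2 : dsa_P A e * (X * d⁄dX ℝ (dsa_G A e)) =
      -(dsa_G A e * (X * d⁄dX ℝ (dsa_P A e))) := by
    linear_combination X * h1
  rw [h2, dsa_X_mul_deriv_P, ← dsa_Bt_mul_P he]
  ring

theorem dsa_coeff_G_succ (he : Complex.normSq e = 1) (n : ℕ) :
    coeff (n + 1) (dsa_G A e) * ((n : ℝ) + 1) = coeff (n + 1) (dsa_Bt A e * dsa_G A e) := by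
  rw [← dsa_X_mul_deriv_G he, coeff_succ_X_mul, coeff_derivative]

/-- **the formal positivity statement**: `g_n ≥ bⁿ / n!`. -/
theorem dsa_coeff_G_ge (he : Complex.normSq e = 1) (n : ℕ) :
    dsa_b A ^ n / (n.factorial : ℝ) ≤ coeff n (dsa_G A e) := by
  induction n with
  | zero => simp [dsa_coeff_G_zero]
  | succ n ih =>
    have h1 := dsa_coeff_G_succ (A := A) he n
    have h2 : dsa_b A * coeff n (dsa_G A e) ≤ coeff (n + 1) (dsa_Bt A e * dsa_G A e) := by
      rw [coeff_mul]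
      have hmem : (1, n) ∈ Finset.HasAntidiagonal.antidiagonal (n + 1) := by
        rw [Finset.HasAntidiagonal.mem_antidiagonal]
        omega
      have hle := Finset.single_le_sum (f := fun x : ℕ × ℕ =>
        coeff x.1 (dsa_Bt A e) * coeff x.2 (dsa_G A e))
        (fun x _ => mul_nonneg (dsa_coeff_Bt_nonneg A e _) (dsa_coeff_G_nonneg A e _)) hmem
      have hb1 : coeff 1 (dsa_Bt A e) = dsa_b A := by
        rw [dsa_Bt, coeff_mk, if_neg one_ne_zero, dsa_bb_one]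
      simp only [hb1] at hle
      exact hle
    have hn : (0 : ℝ) < (n : ℝ) + 1 := by positivity
    have h3 : dsa_b A * (dsa_b A ^ n / (n.factorial : ℝ)) ≤
        coeff (n + 1) (dsa_G A e) * ((n : ℝ) + 1) := by
      rw [h1]
      exact (mul_le_mul_of_nonneg_left ih (dsa_b_nonneg A)).trans h2
    rw [Nat.factorial_succ, pow_succ, Nat.cast_mul, div_le_iff₀ (by positivity)]
    have hf : (0 : ℝ) < (n.factorial : ℝ) := by positivity
    calc dsa_b A ^ n * dsa_b A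
        = dsa_b A * (dsa_b A ^ n / (n.factorial : ℝ)) * (n.factorial : ℝ) := by
          field_simp
      _ ≤ coeff (n + 1) (dsa_G A e) * ((n : ℝ) + 1) * (n.factorial : ℝ) :=
          mul_le_mul_of_nonneg_right h3 hf.le
      _ = coeff (n + 1) (dsa_G A e) * (((n + 1 : ℕ) : ℝ) * (n.factorial : ℝ)) := by
          push_cast
          ring

end Series

section Analytic

/-- evaluation of a product of power series at a point of absolute convergence. -/
theorem dsa_eval_mul (S T : ℝ⟦X⟧) (x : ℝ) (hS : Summable fun n => ‖coeff n S * x ^ n‖)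
    (hT : Summable fun n => ‖coeff n T * x ^ n‖) :
    Summable (fun n => ‖coeff n (S * T) * x ^ n‖) ∧
      (∑' n, coeff n (S * T) * x ^ n) =
        (∑' n, coeff n S * x ^ n) * ∑' n, coeff n T * x ^ n := by
  have hterm : ∀ n, coeff n (S * T) * x ^ n =
      ∑ kl ∈ Finset.HasAntidiagonal.antidiagonal n,
        (coeff kl.1 S * x ^ kl.1) * (coeff kl.2 T * x ^ kl.2) := by
    intro n
    rw [coeff_mul, Finset.sum_mul]
    refine Finset.sum_congr rfl fun kl hkl => ?_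
    have h := Finset.HasAntidiagonal.mem_antidiagonal.mp hkl
    rw [← h, pow_add]
    ring
  have hfun : (fun n => coeff n (S * T) * x ^ n) = fun n =>
      ∑ kl ∈ Finset.HasAntidiagonal.antidiagonal n,
        (coeff kl.1 S * x ^ kl.1) * (coeff kl.2 T * x ^ kl.2) := funext hterm
  constructor
  · have h1 := summable_norm_sum_mul_antidiagonal_of_summable_norm hS hT
    have h2 : (fun n => ‖coeff n (S * T) * x ^ n‖) = fun n =>
        ‖∑ kl ∈ Finset.HasAntidiagonal.antidiagonal n,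
          (coeff kl.1 S * x ^ kl.1) * (coeff kl.2 T * x ^ kl.2)‖ :=
      funext fun n => by rw [hterm n]
    rw [h2]
    exact h1
  · rw [hfun]
    exact (tsum_mul_tsum_eq_tsum_sum_antidiagonal_of_summable_norm hS hT).symm

variable {A e : ℂ}

theorem dsa_geo_summable (x : ℝ) (hx0 : 0 ≤ x) (hx1 : x < 1) :
    Summable fun n => ‖coeff n dsa_geo * x ^ n‖ := by
  refine Summable.of_nonneg_of_le (fun _ => norm_nonneg _) (fun n => ?_)
    (summable_geometric_of_lt_one hx0 hx1)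
  rw [dsa_geo, coeff_mk, norm_mul, norm_pow, Real.norm_of_nonneg hx0]
  split_ifs <;> simp [pow_nonneg hx0]

/-- **the local inequality**: `(1 - x²) exp (‖A‖² x) ≤ ∑ ‖c_m‖² x^m`. -/
theorem dsa_local_ge (he : Complex.normSq e = 1) (x : ℝ) (hx0 : 0 ≤ x) (hx1 : x < 1)
    (hs : Summable fun m => dsa_u A e m * x ^ m) :
    (1 - x ^ 2) * Real.exp (dsa_b A * x) ≤ ∑' m, dsa_u A e m * x ^ m := by
  have hF : Summable fun n => ‖coeff n (dsa_F A e) * x ^ n‖ := by
    have : (fun n => ‖coeff n (dsa_F A e) * x ^ n‖) = fun m => dsa_u A e m * x ^ m := by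
      funext n
      rw [dsa_F, coeff_mk, Real.norm_of_nonneg (mul_nonneg (dsa_u_nonneg A e n) (pow_nonneg hx0 n))]
    rw [this]
    exact hs
  obtain ⟨hG, -⟩ := dsa_eval_mul (dsa_F A e) dsa_geo x hF (dsa_geo_summable x hx0 hx1)
  rw [← dsa_G] at hG
  -- the polynomial `1 - x²`
  have hQ : ∀ n, coeff n ((1 : ℝ⟦X⟧) - X ^ 2) * x ^ n =
      if n = 0 then 1 else if n = 2 then -x ^ 2 else 0 := by
    intro n
    rw [map_sub, coeff_one, coeff_X_pow]
    rcases n with _ | _ | _ | m <;> simp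
  have hQs : Summable fun n => ‖coeff n ((1 : ℝ⟦X⟧) - X ^ 2) * x ^ n‖ := by
    refine summable_of_ne_finset_zero (s := {0, 2}) fun n hn => ?_
    rw [hQ n]
    have h0 : n ≠ 0 := fun h => hn (by simp [h])
    have h2 : n ≠ 2 := fun h => hn (by simp [h])
    simp [h0, h2]
  have hQt : (∑' n, coeff n ((1 : ℝ⟦X⟧) - X ^ 2) * x ^ n) = 1 - x ^ 2 := by
    rw [tsum_eq_sum (s := {0, 2}) (fun n hn => by
      rw [hQ n]
      have h0 : n ≠ 0 := fun h => hn (by simp [h])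
      have h2 : n ≠ 2 := fun h => hn (by simp [h])
      simp [h0, h2])]
    rw [Finset.sum_pair (by norm_num), hQ 0, hQ 2]
    simp
    ring
  obtain ⟨-, hprod⟩ := dsa_eval_mul (dsa_G A e) (1 - X ^ 2) x hG hQs
  rw [dsa_F_eq, hQt] at hprod
  have hFt : (∑' n, coeff n (dsa_F A e) * x ^ n) = ∑' m, dsa_u A e m * x ^ m := by
    refine tsum_congr fun n => ?_
    rw [dsa_F, coeff_mk]
  rw [← hFt, hprod, mul_comm]
  refine mul_le_mul_of_nonneg_right ?_ (sub_nonneg.mpr (pow_le_one₀ hx0 hx1.le))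
  -- `exp (b x) ≤ ∑ g_n xⁿ`
  have hGs : Summable fun n => coeff n (dsa_G A e) * x ^ n := hG.of_norm
  have hexp : HasSum (fun n : ℕ => (dsa_b A * x) ^ n / (n.factorial : ℝ))
      (Real.exp (dsa_b A * x)) := by
    rw [Real.exp_eq_exp_ℝ]
    exact NormedSpace.expSeries_div_hasSum_exp (dsa_b A * x)
  refine hasSum_le (fun n => ?_) hexp hGs.hasSum
  rw [mul_pow, mul_div_right_comm]
  exact mul_le_mul_of_nonneg_right (dsa_coeff_G_ge he n) (pow_nonneg hx0 n)

end Analytic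

end Fermat.Agent.DS
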