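import Mathlib
import Fermat.Agent.DS.Rankin.Local

/-!
# DS-A (Rankin bound), part 0: multiplicativity from the Hecke relations

`a : ℕ → ℂ` with `a 1 = 1` and the Hecke relations at the primes not dividing `N`
(`a (p n) + ε p · a (n / p) = a p · a n`).  Then
* `dsa_hecke_pow` : `a (p^k m) = c_k a m` for `p ∤ m` (`c = dsa_c (a p) (ε p)`);
* `dsa_hecke_mul` : `a (m n) = a m · a n` for `m` prime to `N` and to `n`.
-/

set_option autoImplicit false

namespace Fermat.Agent.DS

section Hecke

variable {a : ℕ → ℂ} {N : ℕ} {ε : ℕ → ℂ}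
variable (hT : ∀ p : ℕ, p.Prime → ¬ p ∣ N → ∀ n : ℕ,
  a (p * n) + ε p * (if p ∣ n then a (n / p) else 0) = a p * a n)

include hT in
theorem dsa_hecke_pow {p : ℕ} (hp : p.Prime) (hpN : ¬ p ∣ N) {m : ℕ} (hpm : ¬ p ∣ m) (k : ℕ) :
    a (p ^ k * m) = dsa_c (a p) (ε p) k * a m := by
  induction k using Nat.strong_induction_on with
  | _ k ih =>
    rcases k with _ | _ | k
    · simp [dsa_c]
    · have h := hT p hp hpN m
      rw [if_neg hpm, mul_zero, add_zero] at h
      simp [dsa_c, h]
    · have h := hT p hp hpN (p ^ (k + 1) * m)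
      have hdvd : p ∣ p ^ (k + 1) * m := Dvd.dvd.mul_right (dvd_pow_self p (Nat.succ_ne_zero k)) m
      have hdiv : p ^ (k + 1) * m / p = p ^ k * m := by
        rw [pow_succ, mul_assoc, mul_comm p m, ← mul_assoc]
        exact Nat.mul_div_cancel _ hp.pos
      rw [if_pos hdvd, hdiv, ih k (by omega), ih (k + 1) (by omega)] at h
      have h2 : p * (p ^ (k + 1) * m) = p ^ (k + 1 + 1) * m := by ring
      rw [h2] at h
      rw [dsa_c]
      linear_combination h

variable (ha1 : a 1 = 1)

include hT ha1 in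
theorem dsa_hecke_mul (m : ℕ) : ∀ n : ℕ, Nat.Coprime m N → Nat.Coprime m n →
    a (m * n) = a m * a n := by
  induction m using Nat.strong_induction_on with
  | _ m ih =>
    intro n hmN hmn
    rcases Nat.lt_or_ge m 2 with hm | hm
    · interval_cases m
      · rw [Nat.coprime_zero_left] at hmn
        rw [hmn, mul_one, ha1, mul_one]
      · rw [one_mul, ha1, one_mul]
    have hm0 : m ≠ 0 := by omega
    have hm1 : m ≠ 1 := by omega
    set p := m.minFac with hp_def
    have hp : p.Prime := Nat.minFac_prime hm1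
    have hpm : p ∣ m := Nat.minFac_dvd m
    have hpN : ¬ p ∣ N := fun h => hp.one_lt.ne' (Nat.eq_one_of_dvd_coprimes hmN hpm h)
    have hpn : ¬ p ∣ n := fun h => hp.one_lt.ne' (Nat.eq_one_of_dvd_coprimes hmn hpm h)
    set k := m.factorization p with hk
    set m' := m / p ^ k with hm'
    have hfac : p ^ k * m' = m := Nat.ordProj_mul_ordCompl_eq_self m p
    have hpm' : ¬ p ∣ m' := Nat.not_dvd_ordCompl hp hm0
    have hk1 : 1 ≤ k := (hp.dvd_iff_one_le_factorization hm0).mp hpm
    have hm'dvd : m' ∣ m := Nat.ordCompl_dvd m p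
    have hm'lt : m' < m := by
      have hpk : 2 ≤ p ^ k := by
        calc 2 ≤ p := hp.two_le
          _ = p ^ 1 := (pow_one p).symm
          _ ≤ p ^ k := Nat.pow_le_pow_right hp.pos hk1
      have hm'pos : 0 < m' := Nat.pos_of_dvd_of_pos hm'dvd (by omega)
      calc m' < 2 * m' := by omega
        _ ≤ p ^ k * m' := Nat.mul_le_mul_right _ hpk
        _ = m := hfac
    have hm'N : Nat.Coprime m' N := Nat.Coprime.coprime_dvd_left hm'dvd hmN
    have hm'n : Nat.Coprime m' n := Nat.Coprime.coprime_dvd_left hm'dvd hmn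
    have hpm'n : ¬ p ∣ m' * n := fun h => (hp.dvd_mul.mp h).elim hpm' hpn
    calc a (m * n) = a (p ^ k * (m' * n)) := by rw [← mul_assoc, hfac]
      _ = dsa_c (a p) (ε p) k * a (m' * n) := dsa_hecke_pow hT hp hpN hpm'n k
      _ = dsa_c (a p) (ε p) k * (a m' * a n) := by rw [ih m' hm'lt n hm'N hm'n]
      _ = (dsa_c (a p) (ε p) k * a m') * a n := by ring
      _ = a (p ^ k * m') * a n := by rw [dsa_hecke_pow hT hp hpN hpm' k]
      _ = a m * a n := by rw [hfac]

include hT ha1 in
theorem dsa_hecke_prime_pow {p : ℕ} (hp : p.Prime) (hpN : ¬ p ∣ N) (k : ℕ) :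
    a (p ^ k) = dsa_c (a p) (ε p) k := by
  have h := dsa_hecke_pow hT hp hpN (m := 1) (Nat.Prime.not_dvd_one hp) k
  rwa [mul_one, ha1, mul_one] at h

end Hecke

end Fermat.Agent.DS
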