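import Mathlib
import Fermat.Agent.DS.Rankin.Dirichlet
import Fermat.Agent.DS.Rankin.Local
import Fermat.Agent.DS.Rankin.Hecke

/-!
# DS-A (Rankin bound), part 4: the Euler product and the main inequality (abstract form)

`a : ℕ → ℂ` with `a 1 = 1`, Hecke relations at `p ∤ N` with `‖ε p‖ = 1`, and partial sums
`∑_{n ≤ M} ‖a n‖² ≤ B M`.  Then for `1 < s ≤ 2` and every finite set `P` of primes not dividing `N`
`∑_{p ∈ P} ‖a p‖² / p^s ≤ log (1 / (s - 1)) + (log (2 B) + 2)`.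
-/

set_option autoImplicit false

open Finset

namespace Fermat.Agent.DS

section Abstract

/-- the multiplicative function `n ↦ ‖a n‖² n^{-s}` restricted to `n` prime to `N`. -/
noncomputable def dsa_g (a : ℕ → ℂ) (N : ℕ) (s : ℝ) (n : ℕ) : ℝ :=
  (if Nat.Coprime n N then ‖a n‖ ^ 2 else 0) / (n : ℝ) ^ s

variable {a : ℕ → ℂ} {N : ℕ} {ε : ℕ → ℂ}

theorem dsa_g_nonneg (s : ℝ) (n : ℕ) : 0 ≤ dsa_g a N s n := by
  unfold dsa_g
  refine div_nonneg ?_ (Real.rpow_nonneg (Nat.cast_nonneg n) s)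
  split_ifs
  · exact sq_nonneg _
  · exact le_rfl

theorem dsa_g_le (s : ℝ) (n : ℕ) : dsa_g a N s n ≤ ‖a n‖ ^ 2 / (n : ℝ) ^ s := by
  unfold dsa_g
  refine div_le_div_of_nonneg_right ?_ (Real.rpow_nonneg (Nat.cast_nonneg n) s)
  split_ifs
  · exact le_rfl
  · exact sq_nonneg _

theorem dsa_g_one (ha1 : a 1 = 1) (s : ℝ) : dsa_g a N s 1 = 1 := by
  unfold dsa_g
  rw [if_pos (Nat.coprime_one_left N), ha1]
  simp

variable (hT : ∀ p : ℕ, p.Prime → ¬ p ∣ N → ∀ n : ℕ,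
  a (p * n) + ε p * (if p ∣ n then a (n / p) else 0) = a p * a n) (ha1 : a 1 = 1)

include hT ha1 in
theorem dsa_g_mul (s : ℝ) {m n : ℕ} (hmn : Nat.Coprime m n) :
    dsa_g a N s (m * n) = dsa_g a N s m * dsa_g a N s n := by
  unfold dsa_g
  have hpow : ((m * n : ℕ) : ℝ) ^ s = (m : ℝ) ^ s * (n : ℝ) ^ s := by
    rw [Nat.cast_mul, Real.mul_rpow (Nat.cast_nonneg m) (Nat.cast_nonneg n)]
  by_cases hm : Nat.Coprime m N
  · by_cases hn : Nat.Coprime n N
    · rw [if_pos (Nat.Coprime.mul_left hm hn), if_pos hm, if_pos hn,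
        dsa_hecke_mul hT ha1 m n hm hmn, norm_mul, mul_pow, hpow, mul_div_mul_comm]
    · have : ¬ Nat.Coprime (m * n) N := fun h => hn (Nat.Coprime.coprime_mul_left h)
      rw [if_neg this, if_neg hn, zero_div, zero_div, mul_zero]
  · have : ¬ Nat.Coprime (m * n) N := fun h => hm (Nat.Coprime.coprime_mul_right h)
    rw [if_neg this, if_neg hm, zero_div, zero_div, zero_mul]

variable (B : ℝ) (hB : 0 ≤ B)
  (hA : ∀ M : ℕ, 0 < M → ∑ n ∈ range (M + 1), ‖a n‖ ^ 2 ≤ B * M)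

include hB hA in
theorem dsa_g_summable (s : ℝ) (hs : 1 < s) (hs2 : s ≤ 2) : Summable (dsa_g a N s) :=
  Summable.of_nonneg_of_le (dsa_g_nonneg s) (dsa_g_le s)
    (dsa_dirichlet_summable (fun n => ‖a n‖ ^ 2) (fun _ => sq_nonneg _) B hB hA s hs hs2)

include hB hA in
theorem dsa_g_tsum_le (s : ℝ) (hs : 1 < s) (hs2 : s ≤ 2) :
    ∑' n, dsa_g a N s n ≤ 2 * B / (s - 1) := by
  have h1 := dsa_dirichlet_summable (fun n => ‖a n‖ ^ 2) (fun _ => sq_nonneg _) B hB hA s hs hs2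
  have h2 := dsa_dirichlet_tsum_le (fun n => ‖a n‖ ^ 2) (fun _ => sq_nonneg _) B hB hA s hs hs2
  exact ((dsa_g_summable (N := N) B hB hA s hs hs2).tsum_le_tsum (dsa_g_le s) h1).trans h2

include hT ha1 in
theorem dsa_g_prime_pow {p : ℕ} (hp : p.Prime) (hpN : ¬ p ∣ N) (s : ℝ) (k : ℕ) :
    dsa_g a N s (p ^ k) = dsa_u (a p) (ε p) k * ((p : ℝ) ^ (-s)) ^ k := by
  unfold dsa_g
  have hcop : Nat.Coprime (p ^ k) N :=
    Nat.Coprime.pow_left k ((Nat.Prime.coprime_iff_not_dvd hp).mpr hpN)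
  rw [if_pos hcop, dsa_hecke_prime_pow hT ha1 hp hpN k, Complex.sq_norm, dsa_u, Nat.cast_pow,
    ← Real.rpow_pow_comm (Nat.cast_nonneg p), Real.rpow_neg (Nat.cast_nonneg p), inv_pow,
    div_eq_mul_inv]

include hT ha1 hB hA in
/-- the finite Euler product is bounded by the full Dirichlet series. -/
theorem dsa_euler_le (s : ℝ) (hs : 1 < s) (hs2 : s ≤ 2) (P : Finset ℕ) (hP : ∀ p ∈ P, p.Prime) :
    ∏ p ∈ P, ∑' k : ℕ, dsa_g a N s (p ^ k) ≤ ∑' n, dsa_g a N s n := by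
  have hsum := dsa_g_summable (N := N) B hB hA s hs hs2
  have hnorm : Summable (fun n => ‖dsa_g a N s n‖) := by
    have : (fun n => ‖dsa_g a N s n‖) = dsa_g a N s :=
      funext fun n => Real.norm_of_nonneg (dsa_g_nonneg s n)
    rw [this]
    exact hsum
  have h := EulerProduct.prod_filter_prime_tsum_eq_tsum_factoredNumbers (f := dsa_g a N s)
    (dsa_g_one ha1 s) (fun {m n} hmn => dsa_g_mul hT ha1 s hmn) hnorm P
  rw [Finset.filter_true_of_mem hP] at h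
  rw [h]
  exact (hsum.subtype _).tsum_le_tsum_of_inj Subtype.val Subtype.val_injective
    (fun c _ => dsa_g_nonneg s c) (fun _ => le_rfl) hsum

/-- `∑_{p ∈ P} p^{-2}  ≤ 1` for a finite set of integers `≥ 2`. -/
theorem dsa_sum_inv_sq_le (P : Finset ℕ) (hP : ∀ p ∈ P, 2 ≤ p) :
    ∑ p ∈ P, ((p : ℝ) ^ 2)⁻¹ ≤ 1 := by
  set M := max 1 (P.sup id) with hM
  have hsub : P ⊆ Finset.Ioc 1 M := by
    intro p hp
    rw [Finset.mem_Ioc]
    refine ⟨by have := hP p hp; omega, le_trans ?_ (le_max_right _ _)⟩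
    exact Finset.le_sup (f := id) hp
  have h1 := Finset.sum_le_sum_of_subset_of_nonneg (f := fun i : ℕ => ((i : ℝ) ^ 2)⁻¹) hsub
    (fun i _ _ => by positivity)
  have h2 := sum_Ioc_inv_sq_le_sub (α := ℝ) (k := 1) (n := M) one_ne_zero (le_max_left _ _)
  have h3 : (0 : ℝ) ≤ (M : ℝ)⁻¹ := by positivity
  simp only [Nat.cast_one, inv_one] at h2
  linarith

include hT ha1 hB hA in
/-- **the Rankin bound, abstract form.** -/
theorem dsa_main_abstract (hε : ∀ p : ℕ, p.Prime → ¬ p ∣ N → Complex.normSq (ε p) = 1)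
    (s : ℝ) (hs : 1 < s) (hs2 : s ≤ 2) (P : Finset ℕ) (hP : ∀ p ∈ P, p.Prime ∧ ¬ p ∣ N) :
    ∑ p ∈ P, ‖a p‖ ^ 2 / (p : ℝ) ^ s ≤ Real.log (1 / (s - 1)) + (Real.log (2 * B) + 2) := by
  have hpos : 0 < s - 1 := by linarith
  have hsum := dsa_g_summable (N := N) B hB hA s hs hs2
  have hPp : ∀ p ∈ P, p.Prime := fun p hp => (hP p hp).1
  -- the local variable `x_p = p^{-s}`
  have hx0 : ∀ p ∈ P, 0 < ((p : ℝ) ^ (-s)) := fun p hp =>
    Real.rpow_pos_of_pos (by exact_mod_cast (hPp p hp).pos) _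
  have hxle : ∀ p ∈ P, ((p : ℝ) ^ (-s)) ≤ ((p : ℝ))⁻¹ := by
    intro p hp
    have hp1 : (1 : ℝ) ≤ p := by exact_mod_cast (hPp p hp).one_lt.le
    rw [← Real.rpow_neg_one]
    exact Real.rpow_le_rpow_of_exponent_le hp1 (by linarith)
  have hxhalf : ∀ p ∈ P, ((p : ℝ) ^ (-s)) ≤ 1 / 2 := by
    intro p hp
    refine (hxle p hp).trans ?_
    have hp2 : (2 : ℝ) ≤ p := by exact_mod_cast (hPp p hp).two_le
    rw [one_div]
    exact inv_anti₀ (by norm_num) hp2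
  -- the local inequality
  have hloc : ∀ p ∈ P, (1 - ((p : ℝ) ^ (-s)) ^ 2) * Real.exp (dsa_b (a p) * (p : ℝ) ^ (-s)) ≤
      ∑' k : ℕ, dsa_g a N s (p ^ k) := by
    intro p hp
    have hp' := hP p hp
    have hsk : Summable fun k : ℕ => dsa_g a N s (p ^ k) :=
      hsum.comp_injective (Nat.pow_right_injective hp'.1.two_le)
    have hfun : (fun k : ℕ => dsa_g a N s (p ^ k)) =
        fun k => dsa_u (a p) (ε p) k * ((p : ℝ) ^ (-s)) ^ k :=
      funext fun k => dsa_g_prime_pow hT ha1 hp'.1 hp'.2 s k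
    rw [hfun] at hsk ⊢
    exact dsa_local_ge (hε p hp'.1 hp'.2) _ (hx0 p hp).le
      (lt_of_le_of_lt (hxhalf p hp) (by norm_num)) hsk
  have hfac0 : ∀ p ∈ P, 0 < 1 - ((p : ℝ) ^ (-s)) ^ 2 := by
    intro p hp
    have h1 := hx0 p hp
    have h2 := hxhalf p hp
    nlinarith
  -- product form
  have hprod : ∏ p ∈ P, (1 - ((p : ℝ) ^ (-s)) ^ 2) * Real.exp (dsa_b (a p) * (p : ℝ) ^ (-s)) ≤
      2 * B / (s - 1) :=
    (Finset.prod_le_prod (fun p hp => (mul_pos (hfac0 p hp) (Real.exp_pos _)).le) hloc).trans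
      ((dsa_euler_le hT ha1 B hB hA s hs hs2 P hPp).trans (dsa_g_tsum_le B hB hA s hs hs2))
  have hprodpos : 0 < ∏ p ∈ P,
      (1 - ((p : ℝ) ^ (-s)) ^ 2) * Real.exp (dsa_b (a p) * (p : ℝ) ^ (-s)) :=
    Finset.prod_pos fun p hp => mul_pos (hfac0 p hp) (Real.exp_pos _)
  have h2B : 0 < 2 * B := by
    have := lt_of_lt_of_le hprodpos hprod
    by_contra hcon
    have : 2 * B / (s - 1) ≤ 0 := div_nonpos_of_nonpos_of_nonneg (not_lt.mp hcon) hpos.le
    linarith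
  have hlog := Real.log_le_log hprodpos hprod
  rw [Real.log_prod (fun p hp => (mul_pos (hfac0 p hp) (Real.exp_pos _)).ne')] at hlog
  have hlogterm : ∀ p ∈ P,
      Real.log ((1 - ((p : ℝ) ^ (-s)) ^ 2) * Real.exp (dsa_b (a p) * (p : ℝ) ^ (-s))) ≥
        ‖a p‖ ^ 2 / (p : ℝ) ^ s - 2 * ((p : ℝ) ^ 2)⁻¹ := by
    intro p hp
    rw [Real.log_mul (hfac0 p hp).ne' (Real.exp_pos _).ne', Real.log_exp]
    have hb : dsa_b (a p) * (p : ℝ) ^ (-s) = ‖a p‖ ^ 2 / (p : ℝ) ^ s := by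
      rw [dsa_b, ← Complex.sq_norm, Real.rpow_neg (Nat.cast_nonneg p), div_eq_mul_inv]
    rw [hb]
    have h1 := Real.one_sub_inv_le_log_of_pos (hfac0 p hp)
    set y := ((p : ℝ) ^ (-s)) ^ 2 with hy
    have hy0 : 0 ≤ y := sq_nonneg _
    have hy4 : y ≤ 1 / 4 := by
      have h1 := hx0 p hp
      have h2 := hxhalf p hp
      rw [hy]
      nlinarith
    have hyle : y ≤ ((p : ℝ) ^ 2)⁻¹ := by
      rw [hy, ← inv_pow]
      exact pow_le_pow_left₀ (hx0 p hp).le (hxle p hp) 2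
    have h3 : 1 - (1 - y)⁻¹ ≥ -(2 * y) := by
      have h1y : 0 < 1 - y := by linarith
      rw [ge_iff_le, ← sub_nonneg]
      have : 1 - (1 - y)⁻¹ - -(2 * y) = (y * (1 - 2 * y)) / (1 - y) := by
        field_simp
        ring
      rw [this]
      exact div_nonneg (mul_nonneg hy0 (by linarith)) h1y.le
    linarith
  have hsumlog := Finset.sum_le_sum hlogterm
  rw [Finset.sum_sub_distrib, ← Finset.mul_sum] at hsumlog
  have hinv := dsa_sum_inv_sq_le P (fun p hp => (hPp p hp).two_le)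
  have hfinal : Real.log (2 * B / (s - 1)) = Real.log (1 / (s - 1)) + Real.log (2 * B) := by
    rw [div_eq_mul_one_div, Real.log_mul h2B.ne' (one_div_pos.mpr hpos).ne', add_comm]
  rw [hfinal] at hlog
  linarith

end Abstract

end Fermat.Agent.DS
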