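import Mathlib

/-!
# DS-A (Rankin bound), part 1: Parseval on horizontal lines

For a cusp form `f` of weight `k` on an arithmetic subgroup `Γ` with strict period `1`, and
`a_n` its `q`-expansion coefficients:

* `dsa_fourierCoeffOn` : the `n`-th Fourier coefficient of `x ↦ f (x + i t)` on `[0, 1]` is
  `a_n e^{-2 π n t}`;
* `dsa_weighted_sum_le` : `∑_{n ∈ X} ‖a_n‖² e^{-4 π n t} ≤ C / t ^ k`;
* `dsa_partial_sum_le` : `∑_{n ≤ M} ‖a_n‖² ≤ B * M ^ k`.
-/

set_option autoImplicit false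

open UpperHalfPlane Complex MeasureTheory Set
open scoped Real

namespace Fermat.Agent.DS

local notation "𝕢" => Function.Periodic.qParam

section Parseval

variable {Γ : Subgroup (GL (Fin 2) ℝ)} {k : ℤ} {F : Type*} [FunLike F ℍ ℂ]

/-- the restriction of `f` to the horizontal line `Im z = t`. -/
noncomputable def dsa_line (f : ℍ → ℂ) (t : ℝ) (ht : 0 < t) (x : ℝ) : ℂ :=
  f ⟨(x : ℂ) + t * Complex.I, by simpa using ht⟩

theorem dsa_line_continuous [ModularFormClass F Γ k] (f : F) (t : ℝ) (ht : 0 < t) :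
    Continuous (dsa_line f t ht) := by
  unfold dsa_line
  fun_prop

theorem dsa_qParam_pow (n : ℕ) (x t : ℝ) :
    1 / 𝕢 1 ((x : ℂ) + t * Complex.I) ^ n =
      Complex.exp (-(2 * π * Complex.I * n * x)) * Real.exp (2 * π * n * t) := by
  rw [Function.Periodic.qParam, ← Complex.exp_nat_mul, one_div, ← Complex.exp_neg,
    Complex.ofReal_exp, ← Complex.exp_add]
  congr 1
  push_cast
  have := Complex.I_sq
  ring_nf
  rw [this]
  ring

/-- the Fourier coefficients of `f` on a horizontal line. -/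
theorem dsa_fourierCoeffOn [ModularFormClass F Γ k] (f : F)
    (h1 : (1 : ℝ) ∈ Γ.strictPeriods) (n : ℕ) (t : ℝ) (ht : 0 < t) :
    fourierCoeffOn (zero_lt_one' ℝ) (dsa_line f t ht) n =
      (qExpansion 1 f).coeff n * Real.exp (-(2 * π * n * t)) := by
  rw [ModularFormClass.qExpansion_coeff_eq_intervalIntegral f one_pos h1 n ht,
    fourierCoeffOn_eq_integral]
  simp only [sub_zero, one_div, inv_one, one_smul, Complex.ofReal_one, one_mul, smul_eq_mul]
  rw [← intervalIntegral.integral_mul_const]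
  refine intervalIntegral.integral_congr fun x _ => ?_
  have h2 := dsa_qParam_pow n x t
  rw [one_div] at h2
  have h3 : (fourier (-(n : ℤ)) ((x : ℝ) : AddCircle (1 - 0 : ℝ)) : ℂ) =
      Complex.exp (-(2 * π * Complex.I * n * x)) := by
    rw [fourier_coe_apply]
    congr 1
    push_cast
    ring
  rw [h3]
  change _ = (𝕢 1 ((x : ℂ) + t * Complex.I) ^ n)⁻¹ * dsa_line f t ht x * _
  rw [h2]
  have hexp : ((Real.exp (2 * π * n * t) : ℝ) : ℂ) * ((Real.exp (-(2 * π * n * t)) : ℝ) : ℂ) = 1 := by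
    rw [← Complex.ofReal_mul, ← Real.exp_add]
    have : 2 * π * n * t + -(2 * π * n * t) = 0 := by ring
    rw [this, Real.exp_zero, Complex.ofReal_one]
  linear_combination (-(Complex.exp (-(2 * π * Complex.I * n * x)) * dsa_line f t ht x)) * hexp

theorem dsa_line_norm_le [CuspFormClass F Γ k] (f : F) {C : ℝ}
    (hC : ∀ τ : ℍ, ‖f τ‖ ≤ C / τ.im ^ ((k : ℝ) / 2)) (t : ℝ) (ht : 0 < t) (x : ℝ) :
    ‖dsa_line f t ht x‖ ≤ C / t ^ ((k : ℝ) / 2) := by
  have h := hC ⟨(x : ℂ) + t * Complex.I, by simpa using ht⟩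
  have him : (⟨(x : ℂ) + t * Complex.I, by simpa using ht⟩ : ℍ).im = t := by
    change ((x : ℂ) + t * Complex.I).im = t
    simp
  rw [him] at h
  exact h

/-- **Parseval/Bessel on the line `Im z = t`.** -/
theorem dsa_weighted_sum_le [CuspFormClass F Γ k] [Γ.IsArithmetic] (f : F)
    (h1 : (1 : ℝ) ∈ Γ.strictPeriods) :
    ∃ C : ℝ, 0 ≤ C ∧ ∀ t : ℝ, 0 < t → ∀ X : Finset ℕ,
      ∑ n ∈ X, ‖(qExpansion 1 f).coeff n‖ ^ 2 * Real.exp (-(4 * π * n * t)) ≤
        C / t ^ (k : ℝ) := by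
  obtain ⟨C, hC⟩ := CuspFormClass.exists_bound (Γ := Γ) (k := k) f
  refine ⟨C ^ 2, sq_nonneg _, fun t ht X => ?_⟩
  set g := dsa_line f t ht with hg
  set M := C / t ^ ((k : ℝ) / 2) with hM
  have hgM : ∀ x, ‖g x‖ ≤ M := dsa_line_norm_le f hC t ht
  have hM0 : 0 ≤ M := le_trans (norm_nonneg _) (hgM 0)
  have hcont : Continuous g := dsa_line_continuous (Γ := Γ) (k := k) f t ht
  have hL2 : MemLp g 2 (volume.restrict (Ioc (0 : ℝ) 1)) :=
    MemLp.of_bound hcont.aestronglyMeasurable M (Filter.Eventually.of_forall hgM)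
  have hsum := hasSum_sq_fourierCoeffOn (zero_lt_one' ℝ) hL2
  have hint : ∫ x in (0 : ℝ)..1, ‖g x‖ ^ 2 ≤ M ^ 2 := by
    have h2 : ∀ x ∈ Set.Icc (0 : ℝ) 1, ‖g x‖ ^ 2 ≤ M ^ 2 := fun x _ =>
      pow_le_pow_left₀ (norm_nonneg _) (hgM x) 2
    have hi1 : IntervalIntegrable (fun x => ‖g x‖ ^ 2) volume 0 1 :=
      (hcont.norm.pow 2).intervalIntegrable 0 1
    have hi2 : IntervalIntegrable (fun _ : ℝ => M ^ 2) volume 0 1 :=
      continuous_const.intervalIntegrable 0 1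
    have h3 := intervalIntegral.integral_mono_on (zero_le_one' ℝ) hi1 hi2 h2
    simpa using h3
  have hMsq : M ^ 2 = C ^ 2 / t ^ (k : ℝ) := by
    rw [hM, div_pow, ← Real.rpow_natCast (t ^ ((k : ℝ) / 2)) 2, ← Real.rpow_mul ht.le]
    congr 2
    push_cast
    ring
  have hterm : ∀ n : ℕ, ‖(qExpansion 1 f).coeff n‖ ^ 2 * Real.exp (-(4 * π * n * t)) =
      ‖fourierCoeffOn (zero_lt_one' ℝ) g (n : ℤ)‖ ^ 2 := by
    intro n
    rw [hg, dsa_fourierCoeffOn (Γ := Γ) (k := k) f h1 n t ht, norm_mul, mul_pow,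
      Complex.norm_real, Real.norm_of_nonneg (Real.exp_pos _).le, ← Real.exp_nat_mul]
    congr 2
    push_cast
    ring
  calc ∑ n ∈ X, ‖(qExpansion 1 f).coeff n‖ ^ 2 * Real.exp (-(4 * π * n * t))
      = ∑ i ∈ X.map Nat.castEmbedding,
          ‖fourierCoeffOn (zero_lt_one' ℝ) g (i : ℤ)‖ ^ 2 := by
        rw [Finset.sum_map]
        exact Finset.sum_congr rfl fun n _ => hterm n
    _ ≤ (1 - 0 : ℝ)⁻¹ • ∫ x in (0 : ℝ)..1, ‖g x‖ ^ 2 :=
        sum_le_hasSum _ (fun i _ => sq_nonneg _) hsum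
    _ ≤ M ^ 2 := by simpa using hint
    _ = C ^ 2 / t ^ (k : ℝ) := hMsq

/-- **Partial sums of `‖a_n‖²`** (Hecke–Rankin, elementary form). -/
theorem dsa_partial_sum_le [CuspFormClass F Γ k] [Γ.IsArithmetic] (f : F)
    (h1 : (1 : ℝ) ∈ Γ.strictPeriods) :
    ∃ B : ℝ, 0 ≤ B ∧ ∀ M : ℕ, 0 < M →
      ∑ n ∈ Finset.range (M + 1), ‖(qExpansion 1 f).coeff n‖ ^ 2 ≤ B * (M : ℝ) ^ (k : ℝ) := by
  obtain ⟨C, hC0, hC⟩ := dsa_weighted_sum_le (Γ := Γ) (k := k) f h1
  refine ⟨Real.exp (4 * π) * C, mul_nonneg (Real.exp_pos _).le hC0, fun M hM => ?_⟩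
  have hM' : (0 : ℝ) < M := by exact_mod_cast hM
  have ht : (0 : ℝ) < 1 / M := by positivity
  have h := hC (1 / M) ht (Finset.range (M + 1))
  have hlow : ∑ n ∈ Finset.range (M + 1), ‖(qExpansion 1 f).coeff n‖ ^ 2 * Real.exp (-(4 * π)) ≤
      ∑ n ∈ Finset.range (M + 1),
        ‖(qExpansion 1 f).coeff n‖ ^ 2 * Real.exp (-(4 * π * n * (1 / M))) := by
    refine Finset.sum_le_sum fun n hn => ?_
    refine mul_le_mul_of_nonneg_left ?_ (sq_nonneg _)
    rw [Real.exp_le_exp, neg_le_neg_iff]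
    have hn' : (n : ℝ) ≤ M := by
      have := Finset.mem_range.mp hn
      exact_mod_cast Nat.lt_succ_iff.mp this
    have h4 : (0 : ℝ) ≤ 4 * π := by positivity
    calc 4 * π * n * (1 / M) = 4 * π * (n / M) := by ring
      _ ≤ 4 * π * 1 := by
          refine mul_le_mul_of_nonneg_left ?_ h4
          rw [div_le_one hM']
          exact hn'
      _ = 4 * π := mul_one _
  have hrw : C / (1 / (M : ℝ)) ^ (k : ℝ) = C * (M : ℝ) ^ (k : ℝ) := by
    rw [one_div, Real.inv_rpow hM'.le, div_inv_eq_mul]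
  rw [hrw] at h
  rw [← Finset.sum_mul] at hlow
  have h5 := hlow.trans h
  have hexp : Real.exp (4 * π) * Real.exp (-(4 * π)) = 1 := by
    rw [← Real.exp_add, add_neg_cancel, Real.exp_zero]
  calc ∑ n ∈ Finset.range (M + 1), ‖(qExpansion 1 f).coeff n‖ ^ 2
      = Real.exp (4 * π) *
          ((∑ n ∈ Finset.range (M + 1), ‖(qExpansion 1 f).coeff n‖ ^ 2) * Real.exp (-(4 * π))) := by
        rw [mul_comm _ (Real.exp (-(4 * π))), ← mul_assoc, hexp, one_mul]
    _ ≤ Real.exp (4 * π) * (C * (M : ℝ) ^ (k : ℝ)) :=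
        mul_le_mul_of_nonneg_left h5 (Real.exp_pos _).le
    _ = Real.exp (4 * π) * C * (M : ℝ) ^ (k : ℝ) := by ring

end Parseval

end Fermat.Agent.DS
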