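import Mathlib
import Fermat.Prelude.Def_FLTPrelim_Modularity
import Fermat.Agent.DS.Rankin.Parseval
import Fermat.Agent.DS.Rankin.Euler

/-!
# DS-A: the Rankin bound for weight-one Hecke eigenforms on `Γ₁(N)`

`dsa_main` : for `f : CuspForm (Gamma1 N) 1` with `a₁ = 1` and the Hecke relations of S48 for a
Dirichlet character `ε`, there is a constant `C` with
`∑_{p ∈ P} ‖a_p‖² / p^s ≤ log (1 / (s - 1)) + C` for all `1 < s ≤ 2` and all finite sets `P` of
primes not dividing `N`.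
-/

set_option autoImplicit false
set_option linter.unusedSectionVars false

open CongruenceSubgroup UpperHalfPlane
open scoped MatrixGroups

namespace Fermat.Agent.DS

section Main

variable (N : ℕ) [NeZero N]

theorem dsa_one_mem_strictPeriods :
    (1 : ℝ) ∈ (Gamma1 N : Subgroup (GL (Fin 2) ℝ)).strictPeriods := by
  rw [strictPeriods_Gamma1]
  exact AddSubgroup.mem_zmultiples 1

/-- partial sums of `‖a_n‖²` for a weight-one cusp form on `Γ₁(N)`. -/
theorem dsa_partial (f : CuspForm (Gamma1 N) 1) :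
    ∃ B : ℝ, 0 ≤ B ∧ ∀ M : ℕ, 0 < M →
      ∑ n ∈ Finset.range (M + 1), ‖ModularFormClass.qCoeff f n‖ ^ 2 ≤ B * M := by
  obtain ⟨B, hB0, hB⟩ := dsa_partial_sum_le (Γ := (Gamma1 N : Subgroup (GL (Fin 2) ℝ))) (k := 1) f
    (dsa_one_mem_strictPeriods N)
  refine ⟨B, hB0, fun M hM => ?_⟩
  have := hB M hM
  simpa [ModularFormClass.qCoeff] using this

theorem dsa_normSq_eps (ε : DirichletCharacter ℂ N) {p : ℕ} (hp : p.Prime) (hpN : ¬ p ∣ N) :
    Complex.normSq (ε (p : ZMod N)) = 1 := by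
  have hcop : Nat.Coprime p N := (Nat.Prime.coprime_iff_not_dvd hp).mpr hpN
  have hu : IsUnit (p : ZMod N) := (ZMod.isUnit_iff_coprime p N).mpr hcop
  obtain ⟨u, hu⟩ := hu
  have h := DirichletCharacter.unit_norm_eq_one ε u
  rw [hu] at h
  rw [← Complex.sq_norm, h, one_pow]

/-- **DS-A: the Rankin bound.** -/
theorem dsa_main (ε : DirichletCharacter ℂ N) (f : CuspForm (Gamma1 N) 1)
    (hf₁ : ModularFormClass.qCoeff f 1 = 1)
    (hT : ∀ p : ℕ, p.Prime → ¬ p ∣ N → ∀ n : ℕ,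
        ModularFormClass.qCoeff f (p * n) +
            ε (p : ZMod N) * (if p ∣ n then ModularFormClass.qCoeff f (n / p) else 0) =
          ModularFormClass.qCoeff f p * ModularFormClass.qCoeff f n) :
    ∃ C : ℝ, ∀ s : ℝ, 1 < s → s ≤ 2 → ∀ P : Finset ℕ, (∀ p ∈ P, p.Prime ∧ ¬ p ∣ N) →
      ∑ p ∈ P, ‖ModularFormClass.qCoeff f p‖ ^ 2 / (p : ℝ) ^ s ≤ Real.log (1 / (s - 1)) + C := by
  obtain ⟨B, hB0, hB⟩ := dsa_partial N f
  refine ⟨Real.log (2 * B) + 2, fun s hs hs2 P hP => ?_⟩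
  exact dsa_main_abstract (a := fun n => ModularFormClass.qCoeff f n) (N := N)
    (ε := fun p => ε (p : ZMod N)) hT hf₁ B hB0 hB
    (fun p hp hpN => dsa_normSq_eps N ε hp hpN) s hs hs2 P hP

end Main

end Fermat.Agent.DS
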