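import Mathlib
import Fermat.Agent.DS.Seams
import Fermat.Agent.DS.Rankin.Main

/-!
# DS-A: the seam `ds_SeamA`

`dsa_primeSum_of_finset` : a general bridge from finite-set bounds to `ds_primeSum` (tsum) bounds.
`dsA_rankin : ds_SeamA` (tsum form), `dsA_rankin_fin : ds_SeamAfin` (finite-subset form).
-/

set_option autoImplicit false

open CongruenceSubgroup UpperHalfPlane
open scoped MatrixGroups

namespace Fermat.Agent.DS

/-- Bridge: if every finite sum over primes in `X` of the nonnegative terms `w p / p ^ s` is bounded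
by `B`, then the prime series is summable and `ds_primeSum X w s ≤ B`. -/
theorem dsa_primeSum_of_finset (X : Set ℕ) (w : ℕ → ℝ) (hw : ∀ n, 0 ≤ w n) (s B : ℝ)
    (h : ∀ P : Finset ℕ, (∀ p ∈ P, p.Prime ∧ p ∈ X) → ∑ p ∈ P, w p / (p : ℝ) ^ s ≤ B) :
    Summable (fun p : Nat.Primes => X.indicator (fun n : ℕ => w n * (n : ℝ) ^ (-s)) (p : ℕ)) ∧
      ds_primeSum X w s ≤ B := by
  classical
  have hnn : ∀ p : Nat.Primes,
      0 ≤ X.indicator (fun n : ℕ => w n * (n : ℝ) ^ (-s)) (p : ℕ) := fun p =>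
    Set.indicator_nonneg (fun n _ => mul_nonneg (hw n) (Real.rpow_nonneg (Nat.cast_nonneg n) _)) _
  have hpart : ∀ T : Finset Nat.Primes,
      ∑ p ∈ T, X.indicator (fun n : ℕ => w n * (n : ℝ) ^ (-s)) (p : ℕ) ≤ B := by
    intro T
    have hP : ∀ p ∈ (T.filter fun p : Nat.Primes => (p : ℕ) ∈ X).image
        (fun p : Nat.Primes => (p : ℕ)), p.Prime ∧ p ∈ X := by
      intro p hp
      rw [Finset.mem_image] at hp
      obtain ⟨q, hq, rfl⟩ := hp
      exact ⟨q.2, (Finset.mem_filter.mp hq).2⟩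
    have h1 := h _ hP
    have h2 : ∑ p ∈ T, X.indicator (fun n : ℕ => w n * (n : ℝ) ^ (-s)) (p : ℕ) =
        ∑ p ∈ (T.filter fun p : Nat.Primes => (p : ℕ) ∈ X).image
          (fun p : Nat.Primes => (p : ℕ)), w p / (p : ℝ) ^ s := by
      rw [Finset.sum_image (f := fun p : ℕ => w p / (p : ℝ) ^ s)
        (g := fun p : Nat.Primes => (p : ℕ)) (fun a _ b _ hab => Subtype.ext hab),
        Finset.sum_filter]
      refine Finset.sum_congr rfl fun p _ => ?_
      by_cases hpX : (p : ℕ) ∈ X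
      · rw [Set.indicator_of_mem hpX, if_pos hpX, Real.rpow_neg (Nat.cast_nonneg _),
          div_eq_mul_inv]
      · rw [Set.indicator_of_notMem hpX, if_neg hpX]
    rw [h2]
    exact h1
  have hsum : Summable
      (fun p : Nat.Primes => X.indicator (fun n : ℕ => w n * (n : ℝ) ^ (-s)) (p : ℕ)) :=
    summable_of_sum_le hnn hpart
  exact ⟨hsum, hsum.tsum_le_of_sum_le hpart⟩

/-- The `tsum` form of the Rankin bound (the shape of `ds_SeamA`, Seams.lean v1 = v3). -/
theorem dsA_rankin_tsum (N : ℕ) [NeZero N] (ε : DirichletCharacter ℂ N)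
    (f : CuspForm (Gamma1 N) 1) (hW : ds_W1 N ε f) :
    ∃ C : ℝ, ∀ s : ℝ, 1 < s → s ≤ 2 →
      Summable (fun p : Nat.Primes => ({p : ℕ | ¬ p ∣ N}).indicator
        (fun n : ℕ => ‖ModularFormClass.qCoeff f n‖ ^ 2 * (n : ℝ) ^ (-s)) (p : ℕ)) ∧
      ds_primeSum {p | ¬ p ∣ N} (fun p => ‖ModularFormClass.qCoeff f p‖ ^ 2) s ≤
        Real.log (1 / (s - 1)) + C := by
  obtain ⟨C, hC⟩ := dsa_main N ε f hW.one hW.hecke
  refine ⟨C, fun s hs hs2 => ?_⟩
  exact dsa_primeSum_of_finset {p | ¬ p ∣ N} (fun p => ‖ModularFormClass.qCoeff f p‖ ^ 2)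
    (fun n => by positivity) s _ (fun P hP => hC s hs hs2 P hP)

/-- **DS-A = the seam `ds_SeamA`** (`tsum` form, Seams.lean v3 family 1). -/
theorem dsA_rankin : ds_SeamA := fun N _ ε f hW => dsA_rankin_tsum N ε f hW

/-- **DS-A, finite-subset form = the seam `ds_SeamAfin`** (Seams.lean v3 family 2). -/
theorem dsA_rankin_fin : ds_SeamAfin := fun N _ ε f hW => dsa_main N ε f hW.one hW.hecke

end Fermat.Agent.DS
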